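import Fermat.Agent.S44.Big.Seams

/-!
# S44, cell [BIG-ASM]: the sub-cell `oldK` from the class `δ(z)` (helper25; prefix `s44bg_`)

`s44bg_oldK_of_delta`: generic in the frame `Fr`, in the residue vector `ν`, in an abelian group `V`
(in the application `V = JZeroC kA M = Pic⁰` of the special fibre of level `M`), in additive
operators `t ℓ : V →+ V` (`= T̃_ℓ = s44k2_TCp kA M ℓ`) and in a map `δ : J₀(M p) → V`
(`δ z = [(1/p) div f̄_z]`, meaningful when `p z = 0` and `ν z = 0`):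

* `add`     **[E2-δ]**  `δ` is additive on `{z | p z = 0, ν z = 0}`;
* `ne_zero` **[E2-δ]**  `¬ D1inf z ⟹ δ z ≠ 0`;
* `hecke`   **[E3b]**   `δ (T_ℓ z) = t ℓ (δ z)`;
* `hlevel`  **[C2]**    a nonzero `t ℓ`-eigenclass of `V[p]` with the eigenvalues `a_ℓ(W)` ⟹ level `M`
                        (`s44k2_level_of_delta`, OldK/LevelM.lean).
-/

set_option autoImplicit false

namespace Fermat.Agent.S44

open WeierstrassCurve WeierstrassCurve.Affine WeierstrassCurve.Affine.Point ModularCurve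
open scoped WeierstrassCurve.Affine

section

variable {P : FreyPackage} {M : ℕ} [NeZero M] [NeZero (M * P.p)] (Fr : s44_Frame P M)
  {Sg : Type} (ν : JZero (M * P.p) → Sg → ZMod P.p)
  {V : Type*} [AddCommGroup V] (t : Nat.Primes → V →+ V) (δ : JZero (M * P.p) → V)

/-- the class `δ(z)` of [E2] with its Hecke equivariance [E3b] -/
structure s44bg_DeltaPkg : Prop where
  add : ∀ z z' : JZero (M * P.p), P.p • z = 0 → P.p • z' = 0 → ν z = 0 → ν z' = 0 →
    δ (z + z') = δ z + δ z'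
  ne_zero : ∀ z : JZero (M * P.p), P.p • z = 0 → ν z = 0 → ¬ Fr.D1inf z → δ z ≠ 0
  hecke : ∀ ℓ : Nat.Primes, ¬ (ℓ : ℕ) ∣ M * P.p → ∀ z : JZero (M * P.p), P.p • z = 0 →
    ν z = 0 → ν (heckeOperatorBar (M * P.p) ℓ z) = 0 →
    δ (heckeOperatorBar (M * P.p) ℓ z) = t ℓ (δ z)

variable {Fr ν t δ}

/-- **`oldK` from `δ`.** -/
theorem s44bg_oldK_of_delta
    (hν : ∀ z z' : JZero (M * P.p), P.p • z = 0 → P.p • z' = 0 → ν (z + z') = ν z + ν z')
    (hΔ : s44bg_DeltaPkg Fr ν t δ)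
    (hlevel : ∀ W : WeierstrassCurve ℤ, W.IsIntegralModelOf P.freyCurve → ∀ δ₀ : V, δ₀ ≠ 0 →
      P.p • δ₀ = 0 →
      (∀ ℓ : Nat.Primes, W.IsGoodPrimeFor ℓ → ¬ (ℓ : ℕ) ∣ M → (ℓ : ℕ) ≠ P.p →
        t ℓ δ₀ = (W.apOfModel ℓ) • δ₀) → P.ModularRepOfLevel M) :
    s44bg_OldK_stmt Fr ν := by
  intro W hW z hz _ _ heig hD hνz
  -- `ν` and `δ` on multiples
  have hν0 : ν 0 = 0 := by
    have h := hν 0 0 (smul_zero _) (smul_zero _)
    rw [add_zero] at h
    exact left_eq_add.1 h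
  have hδ0 : δ 0 = 0 := by
    have h := hΔ.add 0 0 (smul_zero _) (smul_zero _) hν0 hν0
    rw [add_zero] at h
    exact left_eq_add.1 h
  have hn : ∀ n : ℕ, P.p • (n • z) = 0 ∧ ν (n • z) = 0 ∧ δ (n • z) = n • δ z := by
    intro n
    induction n with
    | zero => exact ⟨by rw [zero_nsmul, smul_zero], by rw [zero_nsmul]; exact hν0,
        by rw [zero_nsmul, zero_nsmul]; exact hδ0⟩
    | succ n ih =>
      obtain ⟨h1, h2, h3⟩ := ih
      refine ⟨by rw [smul_comm, hz, smul_zero], ?_, ?_⟩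
      · rw [succ_nsmul, hν _ _ h1 hz, h2, hνz, add_zero]
      · rw [succ_nsmul, succ_nsmul, hΔ.add _ _ h1 hz h2 hνz, h3]
  have hneg : ∀ y : JZero (M * P.p), P.p • y = 0 → ν y = 0 →
      P.p • (-y) = 0 ∧ ν (-y) = 0 ∧ δ (-y) = -δ y := by
    intro y hy hνy
    have h1 : P.p • (-y) = 0 := by rw [neg_nsmul, hy, _root_.neg_zero]
    have h2 : ν (-y) = 0 := by
      have h := hν y (-y) hy h1
      rw [add_neg_cancel, hν0, hνy, zero_add] at h
      exact h.symm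
    refine ⟨h1, h2, ?_⟩
    have h := hΔ.add y (-y) hy h1 hνy h2
    rw [add_neg_cancel, hδ0] at h
    exact (neg_eq_of_add_eq_zero_right h.symm).symm
  have hzs : ∀ n : ℤ, ν (n • z) = 0 ∧ δ (n • z) = n • δ z := by
    intro n
    obtain ⟨m, rfl | rfl⟩ := n.eq_nat_or_neg
    · rw [natCast_zsmul, natCast_zsmul]
      exact ⟨(hn m).2.1, (hn m).2.2⟩
    · rw [neg_smul, neg_smul, natCast_zsmul, natCast_zsmul]
      obtain ⟨h1, h2, h3⟩ := hn m
      obtain ⟨-, k2, k3⟩ := hneg _ h1 h2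
      exact ⟨k2, by rw [k3, h3]⟩
  refine hlevel W hW (δ z) (hΔ.ne_zero z hz hνz hD) ?_ ?_
  · rw [← (hn P.p).2.2, hz, hδ0]
  · intro ℓ hg hℓM hℓp
    have hℓN : ¬ (ℓ : ℕ) ∣ M * P.p := by
      intro h
      rcases (Nat.Prime.dvd_mul ℓ.2).1 h with h | h
      · exact hℓM h
      · exact hℓp ((Nat.prime_dvd_prime_iff_eq ℓ.2 P.pp).1 h)
    have he := heig ℓ hg hℓN hℓp
    have h1 : ν (heckeOperatorBar (M * P.p) ℓ z) = 0 := by
      rw [he]
      exact (hzs _).1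
    rw [← hΔ.hecke ℓ hℓN z hz hνz h1, he]
    exact (hzs _).2

end

end Fermat.Agent.S44
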