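import Fermat.Agent.S44.Low.Seams
import Fermat.Agent.S44.Eis.Frey

/-!
# S44, cell [BIG-ASM]: `s44_Big_stmt` from its sub-cells (helper25; prefix `s44bg_`)

Everything is generic in the frame `Fr : s44_Frame P M` (`N = M p`) and in the internal objects
of [BIG]:

* `Sg : Type`                       the supersingular set (the nodes of the special fibre at `p`);
* `k : Sg → ZMod p`                 the thicknesses (all `1` on Legendre covers);
* `ν : J₀(N) → Sg → ZMod p`         the residue vector of `Ψ_{w_∞}(z)` (order at the node of the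
                                    normalised reduction of `f_z` along the `∞`-branch, mod `p`);
* `B ℓ`                             the additive operator `r ↦ (P ↦ Σ_{Q ↦ P} r(π₁ Q))`;
* `S : Finset ℕ`                    finitely many primes `ℓ` excluded by [HECKE-RES].

Sub-cells (fields of `s44bg_Cells`):
* `mono`     **[H2] MONO-MAIN**  `k_i ν_i(V) = c` for all `i`;
* `heckeRes` **[E3a]**           `ν (T_ℓ z) = B_ℓ (ν z)`;
* `B_eis`    **[E3] (R3)**       `B_ℓ (1/k) = (ℓ + 1) (1/k)`;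
* `ν_add`    **[E2]**            `ν` is additive on `J₀(N)[p]`;
* `oldK`     **[E2] + [C2] OLD-k** `¬ D1inf z`, `ν z = 0`, `T_ℓ z = a_ℓ z` ⟹ level `M`.

`s44bg_bigInf` : the cells ⟹ `s44bg_BigInf_stmt` (= [BIG] under the hypothesis `¬ D1inf (ι v)`).

The passage from `¬ (D1inf ∧ D10)` to `¬ D1inf` is offered in two ways:
* `s44bg_big_of_half` : from **[D-half]** (`as z = bs z = 0`, `D1inf z ⟹ D10 z`);
* `s44bg_big_of_AL`   : from the **Atkin–Lehner involution on `J₀(N)`** (`s44bg_IsAL`): replace the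
  copy `ι` by `W_p ∘ ι`.
-/

set_option autoImplicit false

namespace Fermat.Agent.S44

open WeierstrassCurve WeierstrassCurve.Affine WeierstrassCurve.Affine.Point ModularCurve
open scoped WeierstrassCurve.Affine

section

variable {P : FreyPackage} {M : ℕ} [NeZero M] [NeZero (M * P.p)] (Fr : s44_Frame P M)

/-- **[BIG-inf]**: [BIG] under the hypothesis `Ψ_{w_∞}(ι v) ≠ 0`. -/
def s44bg_BigInf_stmt : Prop :=
  ∀ (W : WeierstrassCurve ℤ) (ι : s44_Tors P →+ JZero (M * P.p)), s44_IsCopy P (M * P.p) W ι →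
    ∀ (x v : s44_Tors P) (a : s44_G → ℕ) (β : s44_Qb), s44_IsLocBasis Fr x v a β →
      (∀ y : s44_Tors P, Fr.as (ι y) = 0 ∧ Fr.bs (ι y) = 0) →
      Fr.Split (ι x) → ¬ Fr.D1inf (ι v) → P.ModularRepOfLevel M

/-- **[D-half]**: on `ker (α_*, β_*)`, depth `≥ 1` at `w_∞` forces depth `≥ 1` at `w_0`. -/
def s44bg_DichHalf_stmt : Prop :=
  ∀ z : JZero (M * P.p), P.p • z = 0 → Fr.as z = 0 → Fr.bs z = 0 → Fr.D1inf z → Fr.D10 z

/-- [BIG] from [BIG-inf] and [D-half]. -/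
theorem s44bg_big_of_half (hI : s44bg_BigInf_stmt Fr) (hH : s44bg_DichHalf_stmt Fr) :
    s44_Big_stmt Fr := by
  intro W ι hι x v a β hb hold hsplit hv
  refine hI W ι hι x v a β hb hold hsplit fun h1 => hv ⟨h1, ?_⟩
  have hp : P.p • ι v = 0 := by rw [← map_nsmul, s44_tors_smul, _root_.map_zero]
  exact hH (ι v) hp (hold v).1 (hold v).2 h1

/-- **[W-J]**: the Atkin–Lehner involution `W_p` on `J₀(M p)`. -/
structure s44bg_IsAL (Wj : JZero (M * P.p) →+ JZero (M * P.p)) : Prop where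
  invol : ∀ z, Wj (Wj z) = z
  smul : ∀ (σ : s44_G) (z : JZero (M * P.p)), Wj (σ • z) = σ • Wj z
  hecke : ∀ ℓ : Nat.Primes, ¬ (ℓ : ℕ) ∣ M * P.p → ∀ z : JZero (M * P.p), P.p • z = 0 →
    Wj (heckeOperatorBar (M * P.p) ℓ z) = heckeOperatorBar (M * P.p) ℓ (Wj z)
  as_W : ∀ z, Fr.as (Wj z) = Fr.bs z
  bs_W : ∀ z, Fr.bs (Wj z) = Fr.as z
  d1inf_W : ∀ z, P.p • z = 0 → Fr.D1inf (Wj z) → Fr.D10 z
  split_W : ∀ z, P.p • z = 0 → Fr.Split z → Fr.Split (Wj z)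

/-- [BIG] from [BIG-inf] and the Atkin–Lehner involution on `J₀(M p)`. -/
theorem s44bg_big_of_AL (hI : s44bg_BigInf_stmt Fr) (Wj : JZero (M * P.p) →+ JZero (M * P.p))
    (hW : s44bg_IsAL Fr Wj) : s44_Big_stmt Fr := by
  intro W ι hι x v a β hb hold hsplit hv
  by_cases h1 : Fr.D1inf (ι v)
  swap
  · exact hI W ι hι x v a β hb hold hsplit h1
  have hp : ∀ y : s44_Tors P, P.p • ι y = 0 := fun y => by
    rw [← map_nsmul, s44_tors_smul, _root_.map_zero]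
  have hcopy : s44_IsCopy P (M * P.p) W (Wj.comp ι) :=
    { model := hι.model
      inj := by
        intro y y' h
        apply hι.inj
        have := congrArg Wj h
        simpa only [AddMonoidHom.comp_apply, hW.invol] using this
      equiv := fun σ y => by
        rw [AddMonoidHom.comp_apply, AddMonoidHom.comp_apply, hι.equiv, hW.smul]
      eigen := fun ℓ hg hℓN hℓp y => by
        rw [AddMonoidHom.comp_apply, ← hW.hecke ℓ hℓN (ι y) (hp y), hι.eigen ℓ hg hℓN hℓp y,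
          map_zsmul] }
  refine hI W (Wj.comp ι) hcopy x v a β hb (fun y => ?_) ?_ ?_
  · rw [AddMonoidHom.comp_apply, hW.as_W, hW.bs_W]
    exact ⟨(hold y).2, (hold y).1⟩
  · exact hW.split_W _ (hp x) hsplit
  · intro h2
    exact hv ⟨h1, hW.d1inf_W _ (hp v) h2⟩

variable {Sg : Type} (S : Finset ℕ) (k : Sg → ZMod P.p)
  (ν : JZero (M * P.p) → Sg → ZMod P.p)
  (B : Nat.Primes → (Sg → ZMod P.p) →+ (Sg → ZMod P.p))

/-- **[H2] MONO-MAIN**: `X` split and `χ`-eigen, `σ V = V + a(σ) X` on inertia with a peu-ramifié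
cocycle `a` (datum `β`) ⟹ the weighted residues `k_i ν_i(V)` do not depend on the node `i`. -/
def s44bg_Mono_stmt : Prop :=
  ∀ (X V : JZero (M * P.p)) (a : s44_G → ℕ) (β : s44_Qb),
    P.p • X = 0 → P.p • V = 0 →
    Fr.as X = 0 → Fr.bs X = 0 → Fr.as V = 0 → Fr.bs V = 0 →
    Fr.ChiEigen X → (∀ σ ∈ Fr.Γ, σ • V = V + a σ • X) →
    β ≠ 0 → β ∈ Fr.A → β⁻¹ ∈ Fr.A → (∀ σ ∈ Fr.Γ, σ β = Fr.ζ ^ a σ * β) →
    Fr.Split X → ¬ Fr.D1inf V → ∃ c : ZMod P.p, ∀ i, k i * ν V i = c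

/-- **[E3a] HECKE-RES**: `ν (T_ℓ z) = B_ℓ (ν z)` on `J₀(N)[p]` for `ℓ ∤ N`, `ℓ ∉ S`. -/
def s44bg_HeckeRes_stmt : Prop :=
  ∀ ℓ : Nat.Primes, ¬ (ℓ : ℕ) ∣ M * P.p → (ℓ : ℕ) ∉ S → ∀ z : JZero (M * P.p), P.p • z = 0 →
    ν (heckeOperatorBar (M * P.p) ℓ z) = B ℓ (ν z)

/-- **[E3] (R3)**: `B_ℓ (1/k) = (ℓ + 1) (1/k)` for `ℓ ∤ N`, `ℓ ∉ S`. -/
def s44bg_BEis_stmt : Prop :=
  ∀ ℓ : Nat.Primes, ¬ (ℓ : ℕ) ∣ M * P.p → (ℓ : ℕ) ∉ S →
    B ℓ (fun i => (k i)⁻¹) = (((ℓ : ℕ) : ZMod P.p) + 1) • fun i => (k i)⁻¹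

/-- **[E2] + [C2] OLD-k**: a `T_ℓ`-eigen class of `J₀(N)[p]` in `ker (α_*, β_*)`, with the
eigenvalues `a_ℓ(W)`, with `Ψ_{w_∞}(z) ≠ 0` and all residues `0` ⟹ level `M`. -/
def s44bg_OldK_stmt : Prop :=
  ∀ W : WeierstrassCurve ℤ, W.IsIntegralModelOf P.freyCurve →
    ∀ z : JZero (M * P.p), P.p • z = 0 → Fr.as z = 0 → Fr.bs z = 0 →
      (∀ ℓ : Nat.Primes, W.IsGoodPrimeFor ℓ → ¬ (ℓ : ℕ) ∣ M * P.p → (ℓ : ℕ) ≠ P.p →
        heckeOperatorBar (M * P.p) ℓ z = (W.apOfModel ℓ) • z) →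
      ¬ Fr.D1inf z → ν z = 0 → P.ModularRepOfLevel M

/-- the sub-cells of [BIG-inf] -/
structure s44bg_Cells : Prop where
  k_ne : ∀ i, k i ≠ 0
  ν_add : ∀ z z' : JZero (M * P.p), P.p • z = 0 → P.p • z' = 0 → ν (z + z') = ν z + ν z'
  mono : s44bg_Mono_stmt Fr k ν
  heckeRes : s44bg_HeckeRes_stmt (M := M) S ν B
  B_eis : s44bg_BEis_stmt (M := M) S k B
  oldK : s44bg_OldK_stmt Fr ν

variable {Fr S k ν B}

theorem s44bg_nu_zero (hC : s44bg_Cells Fr S k ν B) : ν 0 = 0 := by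
  have h := hC.ν_add 0 0 (smul_zero _) (smul_zero _)
  rw [add_zero] at h
  exact left_eq_add.1 h

theorem s44bg_nu_nsmul (hC : s44bg_Cells Fr S k ν B) (z : JZero (M * P.p)) (hz : P.p • z = 0)
    (n : ℕ) : ν (n • z) = n • ν z := by
  induction n with
  | zero => rw [zero_nsmul, zero_nsmul]; exact s44bg_nu_zero hC
  | succ n ih =>
    have hnz : P.p • (n • z) = 0 := by rw [smul_comm, hz, smul_zero]
    rw [succ_nsmul, succ_nsmul, hC.ν_add _ _ hnz hz, ih]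

theorem s44bg_nu_neg (hC : s44bg_Cells Fr S k ν B) (z : JZero (M * P.p)) (hz : P.p • z = 0) :
    ν (-z) = -ν z := by
  have hnz : P.p • (-z) = 0 := by rw [neg_nsmul, hz, _root_.neg_zero]
  have h := hC.ν_add z (-z) hz hnz
  rw [add_neg_cancel, s44bg_nu_zero hC] at h
  exact (neg_eq_of_add_eq_zero_right h.symm).symm

theorem s44bg_nu_zsmul (hC : s44bg_Cells Fr S k ν B) (z : JZero (M * P.p)) (hz : P.p • z = 0)
    (n : ℤ) : ν (n • z) = n • ν z := by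
  obtain ⟨m, rfl | rfl⟩ := n.eq_nat_or_neg
  · rw [natCast_zsmul, natCast_zsmul, s44bg_nu_nsmul hC z hz]
  · have hmz : P.p • (m • z) = 0 := by rw [smul_comm, hz, smul_zero]
    rw [neg_smul, neg_smul, natCast_zsmul, natCast_zsmul, s44bg_nu_neg hC _ hmz,
      s44bg_nu_nsmul hC z hz]

/-- **[BIG-inf] from its sub-cells.** -/
theorem s44bg_bigInf
    (hirr : GaloisRepIsIrreducible (K := AlgebraicClosure ℚ) ℚ P.freyCurve P.p)
    (hC : s44bg_Cells Fr S k ν B) : s44bg_BigInf_stmt Fr := by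
  intro W ι hι x v a β hb hold hsplit hv
  have hp : ∀ y : s44_Tors P, P.p • ι y = 0 := fun y => by
    rw [← map_nsmul, s44_tors_smul, _root_.map_zero]
  have heigX : Fr.ChiEigen (ι x) := by
    intro σ hσ n hn
    rw [← hι.equiv, hb.eig σ hσ n hn, map_nsmul]
  have hext : ∀ σ ∈ Fr.Γ, σ • ι v = ι v + a σ • ι x := by
    intro σ hσ
    rw [← hι.equiv, hb.ext σ hσ, map_add, map_nsmul]
  obtain ⟨c, hc⟩ := hC.mono (ι x) (ι v) a β (hp x) (hp v) (hold x).1 (hold x).2 (hold v).1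
    (hold v).2 heigX hext hb.β_ne hb.β_mem hb.β_inv_mem hb.β_eig hsplit hv
  -- [EIS]: the residue vector vanishes
  have hν : ν (ι v) = 0 := by
    rcases isEmpty_or_nonempty Sg with hE | hE
    · funext i
      exact (hE.false i).elim
    have : Fact P.p.Prime := ⟨P.pp⟩
    have hp2 : P.p ≠ 2 := by
      have := P.hp5
      omega
    have : P.freyCurve.IsElliptic :=
      ⟨isUnit_iff_ne_zero.2 (Fermat.Agent.S05.freyCurve_Δ_ne_zero P)⟩
    obtain ⟨ℓ, hℓ, hgood, hℓS, hℓp, hnd⟩ :=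
      Fermat.Agent.LR.lrv_nonEis_model P.freyCurve hι.model P.pp hp2 hirr
        (S ∪ (M * P.p).primeFactors)
    have hℓS' : ℓ ∉ S := fun h => hℓS (Finset.mem_union_left _ h)
    have hℓN : ¬ ℓ ∣ M * P.p := fun h =>
      hℓS (Finset.mem_union_right _ (Nat.mem_primeFactors.mpr ⟨hℓ, h, NeZero.ne _⟩))
    have hBr : B ⟨ℓ, hℓ⟩ (ν (ι v)) = ((W.apOfModel ℓ : ℤ) : ZMod P.p) • ν (ι v) := by
      rw [← hC.heckeRes ⟨ℓ, hℓ⟩ hℓN hℓS' (ι v) (hp v), hι.eigen ⟨ℓ, hℓ⟩ hgood hℓN hℓp v,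
        s44bg_nu_zsmul hC _ (hp v)]
      funext i
      show (W.apOfModel ℓ) • ν (ι v) i = ((W.apOfModel ℓ : ℤ) : ZMod P.p) * ν (ι v) i
      rw [zsmul_eq_mul]
    refine (s44i_eis k hC.k_ne (B ⟨ℓ, hℓ⟩) (s44i_map_smul _) _
      (hC.B_eis ⟨ℓ, hℓ⟩ hℓN hℓS') (ν (ι v)) c hc _ hBr ?_).2
    intro heq
    apply hnd
    rw [← ZMod.intCast_zmod_eq_zero_iff_dvd]
    push_cast
    show ((ℓ : ℕ) : ZMod P.p) + 1 - ((W.apOfModel ℓ : ℤ) : ZMod P.p) = 0
    rw [← heq, sub_self]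
  exact hC.oldK W hι.model (ι v) (hp v) (hold v).1 (hold v).2
    (fun ℓ hg hℓN hℓp => hι.eigen ℓ hg hℓN hℓp v) hv hν

/-- **[BIG] from its sub-cells and [D-half].** -/
theorem s44bg_big_half
    (hirr : GaloisRepIsIrreducible (K := AlgebraicClosure ℚ) ℚ P.freyCurve P.p)
    (hC : s44bg_Cells Fr S k ν B) (hH : s44bg_DichHalf_stmt Fr) : s44_Big_stmt Fr :=
  s44bg_big_of_half Fr (s44bg_bigInf hirr hC) hH

/-- **[BIG] from its sub-cells and the Atkin–Lehner involution.** -/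
theorem s44bg_big_AL
    (hirr : GaloisRepIsIrreducible (K := AlgebraicClosure ℚ) ℚ P.freyCurve P.p)
    (hC : s44bg_Cells Fr S k ν B) (Wj : JZero (M * P.p) →+ JZero (M * P.p))
    (hW : s44bg_IsAL Fr Wj) : s44_Big_stmt Fr :=
  s44bg_big_of_AL Fr (s44bg_bigInf hirr hC) Wj hW

end

end Fermat.Agent.S44
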