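import Fermat.Agent.S44.Big.Seams

/-!
# S44, cell [BIG-ASM]: [BIG] from [BIG-inf] and the Atkin–Lehner involution, torsion form (helper25)

`s44bg_IsALp Fr Wj` is `s44bg_IsAL Fr Wj` with the fields `invol`, `as_W`, `bs_W` required only on
`J₀(M p)[p]` (this is what the Kummer trick of [W-J] gives); `s44bg_big_ALp` is the corresponding
variant of `s44bg_big_AL`.
-/

set_option autoImplicit false

namespace Fermat.Agent.S44

open WeierstrassCurve WeierstrassCurve.Affine WeierstrassCurve.Affine.Point ModularCurve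
open scoped WeierstrassCurve.Affine

section

variable {P : FreyPackage} {M : ℕ} [NeZero M] [NeZero (M * P.p)] (Fr : s44_Frame P M)

/-- **[W-J]**, torsion form: the Atkin–Lehner involution `W_p` on `J₀(M p)[p]`. -/
structure s44bg_IsALp (Wj : JZero (M * P.p) →+ JZero (M * P.p)) : Prop where
  invol : ∀ z, P.p • z = 0 → Wj (Wj z) = z
  smul : ∀ (σ : s44_G) (z : JZero (M * P.p)), Wj (σ • z) = σ • Wj z
  hecke : ∀ ℓ : Nat.Primes, ¬ (ℓ : ℕ) ∣ M * P.p → ∀ z : JZero (M * P.p), P.p • z = 0 →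
    Wj (heckeOperatorBar (M * P.p) ℓ z) = heckeOperatorBar (M * P.p) ℓ (Wj z)
  as_W : ∀ z, P.p • z = 0 → Fr.as (Wj z) = Fr.bs z
  bs_W : ∀ z, P.p • z = 0 → Fr.bs (Wj z) = Fr.as z
  d1inf_W : ∀ z, P.p • z = 0 → Fr.D1inf (Wj z) → Fr.D10 z
  split_W : ∀ z, P.p • z = 0 → Fr.Split z → Fr.Split (Wj z)

/-- [BIG] from [BIG-inf] and the Atkin–Lehner involution on `J₀(M p)[p]`. -/
theorem s44bg_big_of_ALp (hI : s44bg_BigInf_stmt Fr) (Wj : JZero (M * P.p) →+ JZero (M * P.p))
    (hW : s44bg_IsALp Fr Wj) : s44_Big_stmt Fr := by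
  intro W ι hι x v a β hb hold hsplit hv
  by_cases h1 : Fr.D1inf (ι v)
  swap
  · exact hI W ι hι x v a β hb hold hsplit h1
  have hp : ∀ y : s44_Tors P, P.p • ι y = 0 := fun y => by
    rw [← map_nsmul, s44_tors_smul, _root_.map_zero]
  have hcopy : s44_IsCopy P (M * P.p) W (Wj.comp ι) :=
    { model := hι.model
      inj := by
        intro y y' h
        apply hι.inj
        have := congrArg Wj h
        simpa only [AddMonoidHom.comp_apply, hW.invol _ (hp y), hW.invol _ (hp y')] using this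
      equiv := fun σ y => by
        rw [AddMonoidHom.comp_apply, AddMonoidHom.comp_apply, hι.equiv, hW.smul]
      eigen := fun ℓ hg hℓN hℓp y => by
        rw [AddMonoidHom.comp_apply, ← hW.hecke ℓ hℓN (ι y) (hp y), hι.eigen ℓ hg hℓN hℓp y,
          map_zsmul] }
  refine hI W (Wj.comp ι) hcopy x v a β hb (fun y => ?_) ?_ ?_
  · rw [AddMonoidHom.comp_apply, hW.as_W _ (hp y), hW.bs_W _ (hp y)]
    exact ⟨(hold y).2, (hold y).1⟩
  · exact hW.split_W _ (hp x) hsplit
  · intro h2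
    exact hv ⟨h1, hW.d1inf_W _ (hp v) h2⟩

variable {Sg : Type} {S : Finset ℕ} {k : Sg → ZMod P.p}
  {ν : JZero (M * P.p) → Sg → ZMod P.p}
  {B : Nat.Primes → (Sg → ZMod P.p) →+ (Sg → ZMod P.p)}

variable {Fr} in
/-- **[BIG] from its sub-cells and the Atkin–Lehner involution on `J₀(M p)[p]`.** -/
theorem s44bg_big_ALp
    (hirr : GaloisRepIsIrreducible (K := AlgebraicClosure ℚ) ℚ P.freyCurve P.p)
    (hC : s44bg_Cells Fr S k ν B) (Wj : JZero (M * P.p) →+ JZero (M * P.p))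
    (hW : s44bg_IsALp Fr Wj) : s44_Big_stmt Fr :=
  s44bg_big_of_ALp Fr (s44bg_bigInf hirr hC) Wj hW

end

end Fermat.Agent.S44
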