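import Fermat.Agent.S44.Big.Seams
import Fermat.Agent.S44.Res.Main
import Fermat.Agent.S44.OldK.DeltaInst

/-!
# S44, cell [BIG-ASM]: the field `oldK` of `s44bg_Cells` for `s44_frame2` (helper25; prefix `s44bg_`)

Pure assembly: helper27's `s44k2g_oldK` (OldK/Glue.lean) + helper15's `s44k2d_Delta_of`
(OldK/DeltaInst.lean) + helper20's `Res/Glue.lean`, `Res/Main.lean` + helper28's `s44rd_hmem`,
`s44rd_hsurj` (Res/DictE2.lean).  What remains are the two geometric inputs: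

* `hoff`   **(E2-ord)** `s44e_OrdOff_frame2 P M hpM` (helper6's `s44ro_ord`);
* `hHecke` **(★★)** the reduction of a representative of `T_ℓ z` is `N_ᾱ (β̄ f̄_z)` (helper11's
  `s44ha_red_hecke`), in the shape of `s44k2d_Delta_of`.
-/

set_option autoImplicit false
set_option linter.unusedSectionVars false
set_option linter.style.haveILetI false
set_option synthInstance.maxHeartbeats 400000
set_option maxHeartbeats 1000000

noncomputable section

namespace Fermat.Agent.S44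

open ModularCurve AlgebraicCurve
open Fermat.Agent.JT3 Fermat.Agent.S24 Fermat.Agent.S35 Fermat.Agent.MZ

variable (P : FreyPackage) (M : ℕ) [NeZero M] [NeZero (M * P.p)] (hpM : ¬ P.p ∣ M)

local notation "A₀" => s44f_A P.p P.pp
local notation "kA" => s44e_kA (s44f_A P.p P.pp)
local notation "FF" => s44e_FF (s44f_A P.p P.pp) M

/-- **the field `oldK` of `s44bg_Cells`** for `s44_frame2`, `ν = s44e_nu`, from (E2-ord) and (★★). -/
theorem s44bg_inst_oldK (hoff : s44e_OrdOff_frame2 P M hpM)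
    (hHecke : ∀ ℓ : Nat.Primes, ¬ (ℓ : ℕ) ∣ M * P.p → ∀ (z : JZero (M * P.p)) (fb : FF),
      P.p • z = 0 → s44e_Fbar A₀ M P.p z fb →
      s44e_Fbar A₀ M P.p (heckeOperatorBar (M * P.p) ℓ z)
        (haveI : NeZero (ℓ : ℕ) := ⟨ℓ.2.ne_zero⟩
         s35pe_normAlong (mzrh_alC kA M ℓ) (mzrh_beC kA M ℓ fb))) :
    s44bg_OldK_stmt (s44_frame2 P M hpM) (s44e_nu A₀ M P.p P.pp hpM) := by
  haveI : Fact P.p.Prime := ⟨P.pp⟩
  have hA := s44f_A_liesOver P.p P.pp
  have hmem := s44rd_hmem A₀ hA M hpM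
  have hsurj := s44rd_hsurj A₀ hA M hpM
  haveI halg := jcr_isAlgClosed A₀
  refine s44k2g_oldK (δ := s44k2d_delta P M hpM) hpM (s44_frame2_A_liesOver (P := P) (M := M) (hpM := hpM))
    (s44k2d_Delta_of P M hpM ?_ ?_ ?_ ?_ hHecke ?_) (s44e_nu_add_frame2 P M hpM)
  · intro z hz
    exact s44e_fbar_exists A₀ P.pp hA M hmem hz
  · intro z fb fb' h h'
    obtain ⟨g, hg0, e⟩ := s44e_fbar_unique A₀ P.pp hA M hmem h h'
    refine ⟨1, g, one_ne_zero, hg0, ?_⟩
    rw [e, map_one, one_mul, mul_comm]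
  · intro z z' fb fb' h h'
    exact s44e_fbar_mul A₀ P.pp hA M hmem h h'
  · intro z fb hz h Q hQ
    exact s44e_ord_off_of_Fbar A₀ hA M hpM hoff h Q hQ
  · intro z fb hz h hpow
    obtain ⟨κ, g, hκ, hg, e⟩ := hpow
    obtain ⟨d, hd⟩ := IsAlgClosed.exists_pow_nat_eq κ P.pp.pos
    rw [s44_frame2_D1inf]
    refine s44e_depth_of_pow A₀ P.pp hA M hsurj h ⟨algebraMap kA FF d * g, ?_⟩
    rw [e, mul_pow, ← map_pow, hd]

end Fermat.Agent.S44
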