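import Fermat.Agent.S44.Big.OldK
import Fermat.Agent.S44.Frame2
import Fermat.Agent.S44.OldK.LevelM

/-!
# S44, cell [BIG-ASM]: the sub-cell `oldK` for `s44_frame2` (helper25; prefix `s44bg_`)

`s44bg_oldK_frame2`: for the frame `s44_frame2 P M hpM` (`A = s44f_A p`, `kA` its residue field), the
sub-cell `oldK` follows from a class map `δ : J₀(M p) → JZeroC kA M` satisfying `s44bg_DeltaPkg` for
the operators `T̃_ℓ = s44k2_TCp kA M ℓ` ([E2-δ] + [E3b]); the level-`M` half is
`s44k2_level_of_delta` ([C2]: helper27, helper15, helper1, helper3, helper8).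
-/

set_option autoImplicit false

namespace Fermat.Agent.S44

open WeierstrassCurve WeierstrassCurve.Affine WeierstrassCurve.Affine.Point ModularCurve

/-- **`oldK` for `s44_frame2` from `δ`.** -/
theorem s44bg_oldK_frame2 (P : FreyPackage) (M : ℕ) [NeZero M] [NeZero (M * P.p)]
    (hpM : ¬ P.p ∣ M) {Sg : Type} {ν : JZero (M * P.p) → Sg → ZMod P.p}
    {δ : JZero (M * P.p) → JZeroC (IsLocalRing.ResidueField (s44f_A P.p P.pp)) M}
    (hν : ∀ z z' : JZero (M * P.p), P.p • z = 0 → P.p • z' = 0 → ν (z + z') = ν z + ν z')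
    (hΔ : s44bg_DeltaPkg (s44_frame2 P M hpM) ν
      (s44k2_TCp (IsLocalRing.ResidueField (s44f_A P.p P.pp)) M) δ) :
    s44bg_OldK_stmt (s44_frame2 P M hpM) ν :=
  s44bg_oldK_of_delta hν hΔ fun W hW δ₀ h0 hp he =>
    s44k2_level_of_delta P M hpM W hW (s44f_A P.p P.pp) (s44f_A_liesOver P.p P.pp) δ₀ h0 hp he

end Fermat.Agent.S44
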